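import Fermat.Agent.CayleySylvester.Weights
import Mathlib.LinearAlgebra.FiniteDimensional.Lemmas
import Mathlib.Algebra.CharZero.Defs
import Mathlib.Algebra.Field.Rat

/-!
# The ladder

On weight `j` with `2 j < m d` the maps `lower ∘ raise + c`, `c` a natural number, are injective:
by the commutation rule a vector killed by one gives, on applying `lower`, a vector of smaller
weight killed by another. So `raise` is injective and `lower` surjective below the middle weight.
-/

set_option autoImplicit false

noncomputable section

open MvPolynomial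

namespace FA.CayleySylvester

variable {d : ℕ} {k : Type*} [Field k] [CharZero k]

omit [CharZero k] in
theorem lower_raise_eq {m j : ℕ} (h : 2 * j ≤ m * d) {x : MvPolynomial (Fin (d + 1)) k}
    (hx : x ∈ weightSpace d k m j) :
    lower d k (raise d k x) = raise d k (lower d k x) + ((m * d - 2 * j : ℕ) : k) • x := by
  have h1 := bracket x
  rw [weightOp_eq hx] at h1
  rw [← sub_eq_iff_eq_add', h1, Nat.cast_sub h, Nat.cast_mul, Nat.cast_mul, Nat.cast_ofNat]

theorem eq_zero_of_lower_raise {m : ℕ} : ∀ (j : ℕ), 2 * j < m * d →
    ∀ (c : ℕ) (x : MvPolynomial (Fin (d + 1)) k), x ∈ weightSpace d k m j →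
      lower d k (raise d k x) + (c : k) • x = 0 → x = 0 := by
  intro j
  induction j with
  | zero =>
    intro h c x hx hc
    rw [lower_raise_eq (by omega) hx, lower_eq_zero hx, map_zero, zero_add, ← add_smul,
      ← Nat.cast_add] at hc
    exact (smul_eq_zero.1 hc).resolve_left (Nat.cast_ne_zero.2 (by omega))
  | succ j ih =>
    intro h c x hx hc
    rw [lower_raise_eq (by omega) hx, add_assoc, ← add_smul, ← Nat.cast_add] at hc
    set e := m * d - 2 * (j + 1) + c with he
    have h0 : lower d k x = 0 := by
      refine ih (by omega) e _ (lower_mem hx) ?_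
      have := congrArg (lower d k) hc
      rwa [map_add, Derivation.map_smul, map_zero] at this
    rw [h0, map_zero, zero_add] at hc
    exact (smul_eq_zero.1 hc).resolve_left (Nat.cast_ne_zero.2 (by omega))

theorem raise_injective {m j : ℕ} (h : 2 * j < m * d) {x : MvPolynomial (Fin (d + 1)) k}
    (hx : x ∈ weightSpace d k m j) (h0 : raise d k x = 0) : x = 0 :=
  eq_zero_of_lower_raise j h 0 x hx (by rw [h0, map_zero, Nat.cast_zero, zero_smul, add_zero])

theorem lower_injective {m j : ℕ} (h : m * d < 2 * j) {x : MvPolynomial (Fin (d + 1)) k}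
    (hx : x ∈ weightSpace d k m j) (h0 : lower d k x = 0) : x = 0 := by
  rcases Nat.lt_or_ge (m * d) j with hj | hj
  · rw [weightSpace_eq_bot hj] at hx
    exact (Submodule.mem_bot k).1 hx
  have h1 : raise d k (flip x) = 0 := by rw [raise_eq, flip_flip, h0, map_zero]
  have h2 := raise_injective (by omega) (flip_mem hx) h1
  rw [← flip_flip x, h2, map_zero]

variable (d k) in
/-- `lower` between two weight spaces. -/
def lowerMap (m j : ℕ) : weightSpace d k m (j + 1) →ₗ[k] weightSpace d k m j :=
  (lower d k).toLinearMap.restrict fun _ hx => lower_mem hx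

theorem lowerMap_surjective {m j : ℕ} (h : 2 * j < m * d) :
    Function.Surjective (lowerMap d k m j) := by
  set R : weightSpace d k m j →ₗ[k] weightSpace d k m (j + 1) :=
    (raise d k).toLinearMap.restrict fun _ hx => raise_mem hx
  have hinj : Function.Injective (lowerMap d k m j ∘ₗ R) := by
    rw [injective_iff_map_eq_zero]
    intro x hx
    refine Subtype.ext (eq_zero_of_lower_raise j h 0 _ x.2 ?_)
    rw [Nat.cast_zero, zero_smul, add_zero]
    exact congrArg Subtype.val hx
  have := (LinearMap.injective_iff_surjective (f := lowerMap d k m j ∘ₗ R)).1 hinj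
  exact Function.Surjective.of_comp this

variable (d k) in
/-- The semi-invariants of degree `m` and weight `j`. -/
def semiInvariants (m j : ℕ) : Submodule k (MvPolynomial (Fin (d + 1)) k) :=
  weightSpace d k m j ⊓ LinearMap.ker (lower d k).toLinearMap

omit [CharZero k] in
theorem mem_semiInvariants {m j : ℕ} {x : MvPolynomial (Fin (d + 1)) k} :
    x ∈ semiInvariants d k m j ↔ x ∈ weightSpace d k m j ∧ lower d k x = 0 :=
  Iff.rfl

/-- **The dimension of the semi-invariants.** -/
theorem finrank_semiInvariants_succ {m j : ℕ} (h : 2 * j < m * d) :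
    Module.finrank k (semiInvariants d k m (j + 1)) + boxCount m d j = boxCount m d (j + 1) := by
  have h1 := (lowerMap d k m j).finrank_range_add_finrank_ker
  rw [LinearMap.range_eq_top.2 (lowerMap_surjective h), finrank_top, finrank_weightSpace,
    finrank_weightSpace] at h1
  have e : semiInvariants d k m (j + 1) ≃ₗ[k] LinearMap.ker (lowerMap d k m j) :=
    { toFun := fun x => ⟨⟨x.1, x.2.1⟩, Subtype.ext x.2.2⟩
      invFun := fun x => ⟨x.1.1, x.1.2, congrArg Subtype.val x.2⟩
      map_add' := fun _ _ => rfl
      map_smul' := fun _ _ => rfl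
      left_inv := fun _ => rfl
      right_inv := fun _ => rfl }
  rw [e.finrank_eq, ← h1, Nat.add_comm]

omit [CharZero k] in
theorem finrank_semiInvariants_zero (m : ℕ) :
    Module.finrank k (semiInvariants d k m 0) = boxCount m d 0 := by
  have h : semiInvariants d k m 0 = weightSpace d k m 0 :=
    inf_eq_left.2 fun x hx => lower_eq_zero hx
  rw [h, finrank_weightSpace]

omit [CharZero k] in
theorem boxCount_symm (m : ℕ) {j : ℕ} (h : j ≤ m * d) :
    boxCount m d j = boxCount m d (m * d - j) := by
  rw [← card_expSet, ← card_expSet]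
  exact Nat.card_congr
    { toFun := fun μ => ⟨μ.1.mapDomain Fin.rev, by
        obtain ⟨h1, h2⟩ := μ.2
        obtain ⟨h3, h4⟩ := wt_mapDomain_rev h1
        exact ⟨h4, by omega⟩⟩
      invFun := fun μ => ⟨μ.1.mapDomain Fin.rev, by
        obtain ⟨h1, h2⟩ := μ.2
        obtain ⟨h3, h4⟩ := wt_mapDomain_rev h1
        exact ⟨h4, by omega⟩⟩
      left_inv := fun μ => Subtype.ext <| by
        simp only [← Finsupp.mapDomain_comp]
        rw [show (Fin.rev ∘ Fin.rev : Fin (d + 1) → Fin (d + 1)) = id from funext Fin.rev_rev,
          Finsupp.mapDomain_id]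
      right_inv := fun μ => Subtype.ext <| by
        simp only [← Finsupp.mapDomain_comp]
        rw [show (Fin.rev ∘ Fin.rev : Fin (d + 1) → Fin (d + 1)) = id from funext Fin.rev_rev,
          Finsupp.mapDomain_id] }

omit [CharZero k] in
/-- **Sylvester's theorem**: the counts rise up to the middle. -/
theorem boxCount_le_succ {m j : ℕ} (h : 2 * j < m * d) :
    boxCount m d j ≤ boxCount m d (j + 1) :=
  le_of_le_of_eq (Nat.le_add_left _ _) (finrank_semiInvariants_succ (k := ℚ) h)

end FA.CayleySylvester
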