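import Fermat.Agent.CayleySylvester.Weights
import Mathlib.Algebra.Polynomial.Coeff
import Mathlib.Data.Sym.Card
import Mathlib.Logic.Equiv.Fin.Basic

/-!
# Hermite's reciprocity for the counts

Splitting the multisets on whether they contain the largest or the least value gives the two
recurrences of the Gaussian coefficients, which are exchanged by exchanging `m` and `d`.
-/

set_option autoImplicit false

noncomputable section

open Polynomial

namespace FA.CayleySylvester

/-- The generating polynomial of the sums over multisets of size `m`. -/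
def genPoly {α : Type*} [Fintype α] [DecidableEq α] (w : α → ℕ) (m : ℕ) : ℕ[X] :=
  ∑ s : Sym α m, X ^ ((s : Multiset α).map w).sum

theorem genPoly_congr {α β : Type*} [Fintype α] [DecidableEq α] [Fintype β] [DecidableEq β]
    (e : α ≃ β) (w : β → ℕ) (m : ℕ) : genPoly (w ∘ e) m = genPoly w m :=
  Fintype.sum_equiv (Sym.equivCongr e) _ _ fun s => by
    simp [Sym.equivCongr, Multiset.map_map]

theorem genPoly_option {α : Type*} [Fintype α] [DecidableEq α] (w : Option α → ℕ) (m : ℕ) :
    genPoly w (m + 1) = X ^ w none * genPoly w m + genPoly (w ∘ some) (m + 1) := by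
  have h := (Equiv.sum_comp (symOptionSuccEquiv (α := α) (n := m)).symm
    fun s : Sym (Option α) (m + 1) => (X : ℕ[X]) ^ ((s : Multiset (Option α)).map w).sum).symm
  rw [genPoly, genPoly, genPoly, h, Fintype.sum_sum_type, Finset.mul_sum]
  refine congrArg₂ (· + ·) (Finset.sum_congr rfl fun s _ => ?_) (Finset.sum_congr rfl fun s _ => ?_)
  · show X ^ ((((none : Option α) ::ₛ s : Sym (Option α) (m + 1)) : Multiset _).map w).sum = _
    rw [Sym.coe_cons, Multiset.map_cons, Multiset.sum_cons, pow_add]
  · simp [symOptionSuccEquiv, Multiset.map_map]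

/-- The generating polynomial of `boxCount m d`. -/
def boxPoly (m d : ℕ) : ℕ[X] :=
  genPoly (Fin.val : Fin (d + 1) → ℕ) m

theorem coeff_boxPoly (m d j : ℕ) : (boxPoly m d).coeff j = boxCount m d j := by
  rw [boxPoly, genPoly, finsetSum_coeff, boxCount, Nat.card_eq_fintype_card,
    Fintype.card_subtype, Finset.card_filter]
  exact Finset.sum_congr rfl fun s _ => by simp [coeff_X_pow, eq_comm]

theorem boxPoly_succ_top (m d : ℕ) :
    boxPoly (m + 1) (d + 1) = X ^ (d + 1) * boxPoly m (d + 1) + boxPoly (m + 1) d := by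
  rw [boxPoly, boxPoly, boxPoly, ← genPoly_congr finSuccEquivLast.symm,
    ← genPoly_congr finSuccEquivLast.symm (Fin.val : Fin (d + 1 + 1) → ℕ) m, genPoly_option]
  congr 2
  funext i
  simp

theorem boxPoly_succ_zero (m d : ℕ) :
    boxPoly (m + 1) (d + 1) = boxPoly m (d + 1) + X ^ (m + 1) * boxPoly (m + 1) d := by
  rw [boxPoly, boxPoly, boxPoly, ← genPoly_congr (finSuccEquiv (d + 1)).symm,
    ← genPoly_congr (finSuccEquiv (d + 1)).symm (Fin.val : Fin (d + 1 + 1) → ℕ) m, genPoly_option]
  refine congrArg₂ (· + ·) (by simp) ?_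
  rw [genPoly, genPoly, Finset.mul_sum]
  refine Finset.sum_congr rfl fun s _ => ?_
  rw [← pow_add]
  congr 1
  simp only [Function.comp_apply, finSuccEquiv_symm_some, Fin.val_succ, Multiset.sum_map_add,
    Multiset.map_const', Multiset.sum_replicate, Sym.card_coe, smul_eq_mul, mul_one]
  omega

theorem boxPoly_comm (m : ℕ) : ∀ d, boxPoly m d = boxPoly d m := by
  have hm0 : ∀ d, boxPoly 0 d = 1 := fun d => by
    have h : ∀ s : Sym (Fin (d + 1)) 0, ((s : Multiset (Fin (d + 1))).map Fin.val).sum = 0 :=
      fun s => by simp [Sym.eq_nil_of_card_zero s]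
    simp [boxPoly, genPoly, h]
  have hd0 : ∀ m, boxPoly m 0 = 1 := fun m => by
    have : Subsingleton (Fin (0 + 1)) := inferInstanceAs (Subsingleton (Fin 1))
    have h : ∀ s : Sym (Fin (0 + 1)) m, ((s : Multiset (Fin (0 + 1))).map Fin.val).sum = 0 :=
      fun s => Multiset.sum_eq_zero fun x hx => by
        obtain ⟨i, -, rfl⟩ := Multiset.mem_map.1 hx
        omega
    rw [boxPoly, genPoly, Finset.sum_congr rfl fun s _ => by rw [h s, pow_zero]]
    simp
  induction m with
  | zero => intro d; rw [hm0, hd0]
  | succ m ih =>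
    intro d
    induction d with
    | zero => rw [hm0, hd0]
    | succ d ihd => rw [boxPoly_succ_top, ih, ihd, boxPoly_succ_zero d m, add_comm]

/-- **Hermite's reciprocity.** -/
theorem boxCount_comm (m d j : ℕ) : boxCount m d j = boxCount d m j := by
  rw [← coeff_boxPoly, ← coeff_boxPoly, boxPoly_comm]

end FA.CayleySylvester
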