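import Fermat.Agent.CayleySylvester.Ladder
import Fermat.Agent.ReflectionGroups.Basic
import Mathlib.Algebra.Polynomial.Derivative
import Mathlib.Algebra.MvPolynomial.Funext
import Mathlib.Algebra.Polynomial.Roots
import Mathlib.Algebra.CharZero.Infinite

/-!
# Substitutions of determinant one

Along `x ↦ x + t y` the derivative of a polynomial in the coefficients is its image under `lower`,
so invariance under these substitutions is `lower P = 0`; exchanging `x` and `y` gives `raise`, and
the two kinds of transvection generate `SL₂`.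
-/

set_option autoImplicit false

noncomputable section

open MvPolynomial

namespace FA.CayleySylvester

open Fermat.Agent.ReflectionGroups (act act_mul isHomogeneous_act)

variable {d : ℕ} {k : Type*} [Field k]

/-- The binary form with given coefficients. -/
def formOf (c : Fin (d + 1) → k) : MvPolynomial (Fin 2) k :=
  ∑ i : Fin (d + 1), C (c i) * (X 0 ^ (d - (i : ℕ)) * X 1 ^ (i : ℕ))

variable (d) in
/-- The exponent of `x ^ (d - i) y ^ i`. -/
def formExp (i : ℕ) : Fin 2 →₀ ℕ :=
  Finsupp.single 0 (d - i) + Finsupp.single 1 i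

variable (d) in
/-- The coefficients of a form of degree `d`. -/
def coeffsOf (f : MvPolynomial (Fin 2) k) : Fin (d + 1) → k :=
  fun i => coeff (formExp d i) f

/-- The coefficients after a substitution. -/
def subst (g : Matrix (Fin 2) (Fin 2) k) (c : Fin (d + 1) → k) : Fin (d + 1) → k :=
  coeffsOf d (act g (formOf c))

theorem monomial_formExp (i : ℕ) (a : k) :
    monomial (formExp d i) a = C a * (X 0 ^ (d - i) * X 1 ^ i) := by
  rw [formExp, X_pow_eq_monomial, X_pow_eq_monomial, monomial_mul, C_mul_monomial, mul_one, mul_one]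

theorem formExp_eq_iff {i l : ℕ} : formExp d i = formExp d l ↔ i = l := by
  refine ⟨fun h => ?_, fun h => h ▸ rfl⟩
  simpa [formExp] using DFunLike.congr_fun h 1

theorem isHomogeneous_formOf (c : Fin (d + 1) → k) : (formOf c).IsHomogeneous d := by
  refine IsHomogeneous.sum _ _ _ fun i _ => IsHomogeneous.C_mul ?_ _
  have h : d - (i : ℕ) + (i : ℕ) = d := Nat.sub_add_cancel (Nat.le_of_lt_succ i.2)
  have := (isHomogeneous_X_pow (R := k) (0 : Fin 2) (d - (i : ℕ))).mul
    (isHomogeneous_X_pow (R := k) (1 : Fin 2) (i : ℕ))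
  rwa [h] at this

theorem coeffsOf_formOf (c : Fin (d + 1) → k) : coeffsOf d (formOf c) = c := by
  funext i
  simp only [coeffsOf, formOf, coeff_sum, ← monomial_formExp, coeff_monomial]
  rw [Finset.sum_eq_single i (fun l _ hl => if_neg fun h => hl (Fin.ext (formExp_eq_iff.1 h)))
    (by simp), if_pos rfl]

theorem formOf_coeffsOf {f : MvPolynomial (Fin 2) k} (hf : f.IsHomogeneous d) :
    formOf (coeffsOf d f) = f := by
  ext μ
  simp only [formOf, coeff_sum, ← monomial_formExp, coeff_monomial, coeffsOf]
  by_cases hμ : μ.degree = d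
  · have h2 : μ 0 + μ 1 = d := by rw [← hμ, Finsupp.degree_eq_sum, Fin.sum_univ_two]
    have hμe : formExp d (μ 1) = μ := by
      refine Finsupp.ext fun j => ?_
      fin_cases j <;> simp [formExp]
      omega
    rw [Finset.sum_eq_single (⟨μ 1, by omega⟩ : Fin (d + 1))
      (fun l _ hl => if_neg fun h => hl (Fin.ext (formExp_eq_iff.1 (h.trans hμe.symm))))
      (by simp), if_pos hμe, hμe]
  · rw [hf.coeff_eq_zero hμ]
    refine Finset.sum_eq_zero fun l _ => if_neg fun h => hμ ?_
    have := l.2
    rw [← h, formExp, map_add, Finsupp.degree_single, Finsupp.degree_single]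
    omega

theorem subst_mul (g h : Matrix (Fin 2) (Fin 2) k) (c : Fin (d + 1) → k) :
    subst (g * h) c = subst g (subst h c) := by
  rw [subst, subst, subst, formOf_coeffsOf (isHomogeneous_act h (isHomogeneous_formOf c)), act_mul]

theorem subst_one (c : Fin (d + 1) → k) : subst 1 c = c := by
  rw [subst, Fermat.Agent.ReflectionGroups.act_one, coeffsOf_formOf]

/-- The transvection `x ↦ x + t y`. -/
def shear (t : k) : Matrix (Fin 2) (Fin 2) k :=
  !![1, 0; t, 1]

/-- The exchange of `x` and `y`. -/
def swapMat : Matrix (Fin 2) (Fin 2) k :=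
  !![0, 1; 1, 0]

theorem act_shear_X (t : k) :
    act (shear t) (X 0) = X 0 + C t * X 1 ∧
      act (shear t) (X 1) = (X 1 : MvPolynomial (Fin 2) k) := by
  constructor <;> simp [act, shear, Fin.sum_univ_two]

theorem subst_shear (t : k) (c : Fin (d + 1) → k) (i : Fin (d + 1)) :
    subst (shear t) c i = ∑ l : Fin (d + 1), if (l : ℕ) ≤ i then
      ((d - l).choose ((i : ℕ) - l) : k) * c l * t ^ ((i : ℕ) - l) else 0 := by
  obtain ⟨h0, h1⟩ := act_shear_X t
  have hC : ∀ a : k, act (shear t) (C a) = C a := fun a => (act (shear t)).commutes a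
  simp only [subst, coeffsOf, formOf, map_sum, map_mul, map_pow, h0, h1, hC, coeff_sum]
  refine Finset.sum_congr rfl fun l _ => ?_
  have hl := l.2
  have hi := i.2
  rw [coeff_C_mul, add_comm (X (0 : Fin 2)) (C t * X 1), add_pow, Finset.sum_mul, coeff_sum]
  have e : ∀ q ∈ Finset.range (d - l + 1), (C t * X 1) ^ q * X 0 ^ (d - l - q) *
      ((d - l).choose q : MvPolynomial (Fin 2) k) * X 1 ^ (l : ℕ) =
        monomial (formExp d (l + q)) (t ^ q * ((d - l).choose q : k)) := fun q hq => by
    rw [monomial_formExp, map_mul, map_pow, map_natCast, mul_pow, pow_add,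
      Nat.sub_add_eq]
    ring
  rw [Finset.sum_congr rfl fun q hq => congrArg (coeff _) (e q hq)]
  simp only [coeff_monomial, formExp_eq_iff]
  split_ifs with h
  · rw [Finset.sum_eq_single ((i : ℕ) - l) (fun q _ hq => if_neg (by omega))
      (fun hq => absurd (Finset.mem_range.2 (by omega)) hq), if_pos (by omega)]
    ring
  · rw [Finset.sum_eq_zero fun q _ => if_neg (by omega), mul_zero]

theorem subst_swap (c : Fin (d + 1) → k) : subst swapMat c = c ∘ Fin.rev := by
  have h0 : act swapMat (X 0) = (X 1 : MvPolynomial (Fin 2) k) := by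
    simp [act, swapMat, Fin.sum_univ_two]
  have h1 : act swapMat (X 1) = (X 0 : MvPolynomial (Fin 2) k) := by
    simp [act, swapMat, Fin.sum_univ_two]
  have hC : ∀ a : k, act (swapMat : Matrix (Fin 2) (Fin 2) k) (C a) = C a := fun a =>
    (act swapMat).commutes a
  have e : act swapMat (formOf c) = formOf (c ∘ Fin.rev) := by
    rw [formOf, formOf, map_sum, ← Equiv.sum_comp Fin.revPerm]
    refine Finset.sum_congr rfl fun i _ => ?_
    have hi := i.2
    rw [map_mul, map_mul, map_pow, map_pow, h0, h1, hC, Fin.revPerm_apply, Function.comp_apply,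
      mul_comm (X 1 ^ _), Fin.val_rev, show d + 1 - ((i : ℕ) + 1) = d - i by omega,
      show d - (d - (i : ℕ)) = i by omega]
  rw [subst, e, coeffsOf_formOf]

variable (d k) in
/-- The coefficients along `x ↦ x + t y`. -/
def flow : MvPolynomial (Fin (d + 1)) k →ₐ[k] Polynomial (MvPolynomial (Fin (d + 1)) k) :=
  aeval fun i => ∑ l : Fin (d + 1), if (l : ℕ) ≤ i then
    Polynomial.C (C ((d - l).choose ((i : ℕ) - l) : k) * X l) * Polynomial.X ^ ((i : ℕ) - l) else 0

theorem derivative_flow (p : MvPolynomial (Fin (d + 1)) k) :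
    Polynomial.derivative (flow d k p) = flow d k (lower d k p) := by
  induction p using MvPolynomial.induction_on with
  | C a =>
    rw [derivation_C, map_zero, flow, aeval_C]
    exact Polynomial.derivative_C
  | add p q hp hq => simp only [map_add, hp, hq]
  | mul_X p i hp =>
    have hX : Polynomial.derivative (flow d k (X i)) = flow d k (lower d k (X i)) := by
      have hi := i.2
      rw [lower_X, apply_ite (flow d k), map_zero, map_mul, flow, aeval_X, aeval_X, aeval_C,
        Polynomial.derivative_sum]
      split_ifs with h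
      · refine Finset.sum_eq_zero fun l _ => ?_
        split_ifs
        · rw [show (i : ℕ) - l = 0 by omega, pow_zero, mul_one, Polynomial.derivative_C]
        · exact Polynomial.derivative_zero
      rw [Finset.mul_sum]
      refine Finset.sum_congr rfl fun l _ => ?_
      rw [coe_prevIdx]
      rcases lt_trichotomy (l : ℕ) i with hl | hl | hl
      · rw [if_pos hl.le, if_pos (by omega), Polynomial.derivative_C_mul_X_pow,
          show algebraMap k (Polynomial (MvPolynomial (Fin (d + 1)) k)) ((d + 1 - i : ℕ) : k) =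
            Polynomial.C (C ((d + 1 - i : ℕ) : k)) from rfl,
          ← mul_assoc, ← map_mul, show (i : ℕ) - 1 - l = (i : ℕ) - l - 1 by omega]
        congr 2
        rw [← mul_assoc, ← C_mul, mul_comm (C _ * X l) _, ← mul_assoc,
          ← map_natCast (C (σ := Fin (d + 1)) (R := k)), ← C_mul, ← Nat.cast_mul, ← Nat.cast_mul]
        congr 3
        have h1 := Nat.choose_succ_right_eq (d - l) ((i : ℕ) - l - 1)
        rw [show (i : ℕ) - l - 1 + 1 = (i : ℕ) - l by omega,
          show d - (l : ℕ) - ((i : ℕ) - l - 1) = d + 1 - i by omega] at h1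
        rw [mul_comm, h1, mul_comm]
      · rw [if_pos hl.le, if_neg (by omega), mul_zero, hl, Nat.sub_self, pow_zero, mul_one,
          Polynomial.derivative_C]
      · rw [if_neg (by omega), if_neg (by omega), mul_zero, Polynomial.derivative_zero]
    rw [map_mul, Polynomial.derivative_mul, hp, hX, Derivation.leibniz, map_add, smul_eq_mul,
      smul_eq_mul, map_mul, map_mul]
    ring

theorem eval₂_flow (t : k) (c : Fin (d + 1) → k) (p : MvPolynomial (Fin (d + 1)) k) :
    (flow d k p).eval₂ (eval c) t = eval (subst (shear t) c) p := by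
  induction p using MvPolynomial.induction_on with
  | C a =>
    rw [flow, aeval_C, eval_C]
    exact (Polynomial.eval₂_C _ _).trans (eval_C a)
  | add p q hp hq => simp only [map_add, Polynomial.eval₂_add, hp, hq]
  | mul_X p i hp =>
    rw [map_mul, Polynomial.eval₂_mul, hp, map_mul, eval_X, subst_shear]
    congr 1
    rw [flow, aeval_X, Polynomial.eval₂_finsetSum]
    refine Finset.sum_congr rfl fun l _ => ?_
    split_ifs <;> simp

theorem eval₂_flow_zero (c : Fin (d + 1) → k) (p : MvPolynomial (Fin (d + 1)) k) :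
    (flow d k p).eval₂ (eval c) 0 = eval c p := by
  rw [eval₂_flow, show (shear (0 : k)) = 1 by ext i j; fin_cases i <;> fin_cases j <;> simp [shear],
    subst_one]

variable [CharZero k]

/-- **Invariance under `x ↦ x + t y`.** -/
theorem invariant_shear_iff (p : MvPolynomial (Fin (d + 1)) k) :
    (∀ t c, eval (subst (shear t) c) p = eval c p) ↔ lower d k p = 0 := by
  constructor
  · intro h
    refine MvPolynomial.funext fun c => ?_
    have h1 : (flow d k p).map (eval c) = Polynomial.C (eval c p) :=
      Polynomial.funext fun t => by rw [Polynomial.eval_map, eval₂_flow, h, Polynomial.eval_C]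
    rw [map_zero, ← eval₂_flow_zero c (lower d k p), ← derivative_flow, ← Polynomial.eval_map,
      ← Polynomial.derivative_map, h1, Polynomial.derivative_C, Polynomial.eval_zero]
  · intro h t c
    have h1 : Polynomial.derivative (flow d k p) = 0 := by rw [derivative_flow, h, map_zero]
    rw [← eval₂_flow, ← eval₂_flow_zero c p, Polynomial.eq_C_of_derivative_eq_zero h1,
      Polynomial.eval₂_C, Polynomial.eval₂_C]

omit [CharZero k] in
theorem eval_subst_swap (c : Fin (d + 1) → k) (p : MvPolynomial (Fin (d + 1)) k) :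
    eval (subst swapMat c) p = eval c (flip p) := by
  rw [subst_swap, flip, eval_rename]

omit [CharZero k] in
theorem decompose_upper (t : k) :
    (!![1, t; 0, 1] : Matrix (Fin 2) (Fin 2) k) = swapMat * shear t * swapMat := by
  ext i j
  fin_cases i <;> fin_cases j <;> simp [swapMat, shear, Matrix.mul_apply, Fin.sum_univ_two]

/-- **Invariance under `SL₂`.** -/
theorem invariant_iff (p : MvPolynomial (Fin (d + 1)) k) :
    (∀ g : Matrix (Fin 2) (Fin 2) k, g.det = 1 → ∀ c, eval (subst g c) p = eval c p) ↔
      lower d k p = 0 ∧ raise d k p = 0 := by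
  have hup : ∀ (t : k) c, eval (subst (!![1, t; 0, 1]) c) p =
      eval (subst (shear t) (subst swapMat c)) (flip p) := fun t c => by
    rw [decompose_upper, subst_mul, subst_mul, eval_subst_swap]
  have hswap : ∀ c : Fin (d + 1) → k, eval (subst swapMat c) (flip p) = eval c p := fun c => by
    rw [eval_subst_swap, flip_flip]
  constructor
  · intro h
    refine ⟨(invariant_shear_iff p).1 fun t c =>
      h _ (by simp [shear, Matrix.det_fin_two]) c, ?_⟩
    rw [raise_eq, (invariant_shear_iff (flip p)).1 fun t c => ?_, map_zero]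
    have h1 := h (!![1, t; 0, 1]) (by simp [Matrix.det_fin_two]) (subst swapMat c)
    rw [hup, ← subst_mul swapMat swapMat, show (swapMat * swapMat : Matrix (Fin 2) (Fin 2) k) = 1 by
      ext i j; fin_cases i <;> fin_cases j <;> simp [swapMat, Matrix.mul_apply, Fin.sum_univ_two],
      eval_subst_swap] at h1
    rwa [subst_one] at h1
  · rintro ⟨hl, hr⟩
    have hl' := (invariant_shear_iff p).2 hl
    have hr' : lower d k (flip p) = 0 := by
      rw [← flip_flip (lower d k (flip p)), ← raise_eq, hr, map_zero]
    have hu : ∀ (t : k) c, eval (subst (!![1, t; 0, 1]) c) p = eval c p := fun t c => by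
      rw [hup, (invariant_shear_iff (flip p)).2 hr', hswap]
    have hne : ∀ g : Matrix (Fin 2) (Fin 2) k, g.det = 1 → g 1 0 ≠ 0 →
        ∀ c, eval (subst g c) p = eval c p := by
      intro g hg hc c
      have e : g = !![1, (g 0 0 - 1) / g 1 0; 0, 1] * shear (g 1 0) *
          !![1, (g 1 1 - 1) / g 1 0; 0, 1] := by
        rw [Matrix.det_fin_two] at hg
        ext i j
        fin_cases i <;> fin_cases j <;>
          simp [shear, Matrix.mul_apply, Fin.sum_univ_two] <;> field_simp <;>
            first | linear_combination -hg | linear_combination hg | linear_combination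
      rw [e, subst_mul, subst_mul, hu, hl', hu]
    intro g hg c
    by_cases hc : g 1 0 = 0
    · have hg' : (shear 1 * g).det = 1 := by
        rw [Matrix.det_mul, hg, mul_one]
        simp [shear, Matrix.det_fin_two]
      have h00 : g 0 0 ≠ 0 := fun h => one_ne_zero (α := k) (by
        rw [← hg, Matrix.det_fin_two, h, hc]; ring)
      have h1 := hne _ hg' (by simp [shear, Matrix.mul_apply, Fin.sum_univ_two, hc, h00]) c
      rwa [subst_mul, hl'] at h1
    · exact hne g hg hc c

variable (d k) in
/-- The invariants of degree `m`. -/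
def sl2Invariants (m : ℕ) : Submodule k (MvPolynomial (Fin (d + 1)) k) where
  carrier := {p | p.IsHomogeneous m ∧ lower d k p = 0 ∧ raise d k p = 0}
  add_mem' {p q} hp hq := ⟨hp.1.add hq.1, by rw [map_add, hp.2.1, hq.2.1, add_zero],
    by rw [map_add, hp.2.2, hq.2.2, add_zero]⟩
  zero_mem' := ⟨isHomogeneous_zero _ _ _, map_zero _, map_zero _⟩
  smul_mem' a p hp := ⟨by rw [smul_eq_C_mul]; exact hp.1.C_mul a,
    by rw [Derivation.map_smul, hp.2.1, smul_zero], by rw [Derivation.map_smul, hp.2.2, smul_zero]⟩

theorem wt_of_invariant {m : ℕ} {p : MvPolynomial (Fin (d + 1)) k}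
    (hp : p ∈ sl2Invariants d k m) {μ : Fin (d + 1) →₀ ℕ} (hμ : μ ∈ p.support) :
    μ.degree = m ∧ 2 * wt μ = m * d := by
  have hdeg : ∀ ν, coeff ν p ≠ 0 → ν.degree = m := fun ν hν =>
    by_contra fun h => hν (hp.1.coeff_eq_zero h)
  refine ⟨hdeg μ (mem_support_iff.1 hμ), ?_⟩
  have h1 : weightOp d k p = 0 := by rw [← bracket, hp.2.2, hp.2.1, map_zero, map_zero, sub_zero]
  rw [p.as_sum, map_sum, Finset.sum_congr rfl fun ν _ => weightOp_monomial ν (coeff ν p)] at h1
  have h2 := congrArg (coeff μ) h1
  rw [coeff_sum, Finset.sum_eq_single μ (fun ν _ hν => by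
      rw [coeff_smul, coeff_monomial, if_neg hν, smul_zero]) (fun h => absurd hμ h), coeff_smul,
    coeff_monomial, if_pos rfl, coeff_zero, smul_eq_zero] at h2
  have h3 := h2.resolve_right (mem_support_iff.1 hμ)
  rw [hdeg μ (mem_support_iff.1 hμ), sub_eq_zero] at h3
  exact_mod_cast h3.symm

theorem sl2Invariants_odd {m : ℕ} (h : Odd (m * d)) : sl2Invariants d k m = ⊥ := by
  refine (Submodule.eq_bot_iff _).2 fun p hp => support_eq_empty.1 ?_
  refine Finset.eq_empty_iff_forall_notMem.2 fun μ hμ => ?_
  obtain ⟨-, h2⟩ := wt_of_invariant hp hμ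
  exact Nat.not_odd_iff_even.2 ⟨wt μ, by omega⟩ h

theorem sl2Invariants_even {m j : ℕ} (h : m * d = 2 * j) :
    sl2Invariants d k m = semiInvariants d k m j := by
  ext p
  constructor
  · intro hp
    refine ⟨(mem_restrictSupport_iff k).2 fun μ hμ => ?_, hp.2.1⟩
    obtain ⟨h1, h2⟩ := wt_of_invariant hp hμ
    exact ⟨h1, by omega⟩
  · rintro ⟨hp, hl⟩
    refine ⟨fun μ hμ => ?_, hl, lower_injective (by omega) (raise_mem hp) ?_⟩
    · rw [← ((mem_restrictSupport_iff k).1 hp (mem_support_iff.2 hμ)).1,
        Finsupp.degree_eq_weight_one]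
      rfl
    · rw [lower_raise_eq (by omega) hp, show lower d k p = 0 from hl, map_zero, zero_add,
        show m * d - 2 * j = 0 by omega, Nat.cast_zero, zero_smul]

end FA.CayleySylvester
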