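import Mathlib.Algebra.MvPolynomial.Derivation
import Mathlib.RingTheory.MvPolynomial.Basic
import Mathlib.Data.Finsupp.Weight
import Mathlib.Data.Finsupp.Multiset
import Mathlib.Algebra.MvPolynomial.Rename
import Mathlib.Data.Sym.Card
import Mathlib.Algebra.Order.Antidiag.Finsupp
import Mathlib.LinearAlgebra.Dimension.StrongRankCondition
import Mathlib.LinearAlgebra.FiniteDimensional.Basic
import Mathlib.Tactic.LinearCombination

/-!
# Weights and the operators of Cayley

The coefficient `cᵢ` of `x ^ (d - i) * y ^ i` has weight `i`. The operator `lower` sends `cᵢ` to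
`(d + 1 - i) cᵢ₋₁`, `raise` is its conjugate by `cᵢ ↦ c_{d-i}`, and their commutator multiplies
the forms of degree `m` and weight `j` by `m d - 2 j`.
-/

set_option autoImplicit false

noncomputable section

open MvPolynomial

namespace FA.CayleySylvester

variable {d : ℕ} {k : Type*} [Field k]

/-- The preceding index. -/
def prevIdx (i : Fin (d + 1)) : Fin (d + 1) :=
  ⟨(i : ℕ) - 1, by omega⟩

theorem coe_prevIdx (i : Fin (d + 1)) : (prevIdx i : ℕ) = (i : ℕ) - 1 :=
  rfl

/-- The weight of an exponent. -/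
def wt (μ : Fin (d + 1) →₀ ℕ) : ℕ :=
  Finsupp.weight (fun i : Fin (d + 1) => (i : ℕ)) μ

theorem wt_add (μ ν : Fin (d + 1) →₀ ℕ) : wt (μ + ν) = wt μ + wt ν :=
  map_add _ μ ν

theorem wt_single (i : Fin (d + 1)) (e : ℕ) : wt (Finsupp.single i e) = e * i := by
  rw [wt, Finsupp.weight_single, smul_eq_mul]

theorem wt_eq_sum (μ : Fin (d + 1) →₀ ℕ) : wt μ = ∑ i, μ i * (i : ℕ) := by
  rw [wt, Finsupp.weight_apply, Finsupp.sum_fintype _ _ fun i => by simp]
  simp [smul_eq_mul]

/-- The exponents of degree `m` and weight `j`. -/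
def expSet (d m j : ℕ) : Set (Fin (d + 1) →₀ ℕ) :=
  {μ | μ.degree = m ∧ wt μ = j}

theorem wt_le {μ : Fin (d + 1) →₀ ℕ} {m : ℕ} (h : μ.degree = m) : wt μ ≤ m * d := by
  rw [wt_eq_sum, ← h, Finsupp.degree_eq_sum, Finset.sum_mul]
  exact Finset.sum_le_sum fun i _ => Nat.mul_le_mul_left _ (Nat.le_of_lt_succ i.2)

theorem wt_mapDomain_rev {μ : Fin (d + 1) →₀ ℕ} {m : ℕ} (h : μ.degree = m) :
    wt (μ.mapDomain Fin.rev) + wt μ = m * d ∧ (μ.mapDomain Fin.rev).degree = m := by
  have e : ∀ i, μ.mapDomain Fin.rev i = μ (Fin.rev i) := fun i => by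
    conv_lhs => rw [← Fin.rev_rev i]
    exact Finsupp.mapDomain_apply Fin.rev_injective μ _
  constructor
  · rw [wt_eq_sum, wt_eq_sum, ← h, Finsupp.degree_eq_sum, Finset.sum_mul,
      ← Equiv.sum_comp Fin.revPerm, ← Finset.sum_add_distrib]
    refine Finset.sum_congr rfl fun i _ => ?_
    rw [Fin.revPerm_apply, e, Fin.rev_rev, ← Nat.mul_add, Fin.val_rev]
    congr 1
    omega
  · rw [← h, Finsupp.degree_eq_sum, Finsupp.degree_eq_sum, ← Equiv.sum_comp Fin.revPerm]
    exact Finset.sum_congr rfl fun i _ => by rw [Fin.revPerm_apply, e, Fin.rev_rev]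

theorem finite_expSet (d m j : ℕ) : (expSet d m j).Finite :=
  ((Finset.univ.finsuppAntidiag m).finite_toSet).subset fun μ hμ => Finset.mem_coe.2
    (Finset.mem_finsuppAntidiag.2 ⟨by rw [← Finsupp.degree_eq_sum]; exact hμ.1,
      Finset.subset_univ _⟩)

variable (d k) in
/-- The forms of degree `m` and weight `j` in the coefficients. -/
def weightSpace (m j : ℕ) : Submodule k (MvPolynomial (Fin (d + 1)) k) :=
  restrictSupport k (expSet d m j)

/-- The number of exponents of degree `m` and weight `j`. -/
def boxCount (m d j : ℕ) : ℕ :=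
  Nat.card {s : Sym (Fin (d + 1)) m // ((s : Multiset (Fin (d + 1))).map Fin.val).sum = j}

theorem card_expSet (m j : ℕ) : Nat.card (expSet d m j) = boxCount m d j := by
  classical
  refine (Nat.card_congr ((Equiv.subtypeSubtypeEquivSubtypeInter
    (fun s : Multiset (Fin (d + 1)) => s.card = m) fun s => (s.map Fin.val).sum = j).trans
      (Multiset.toFinsupp.toEquiv.subtypeEquiv (q := fun μ => μ ∈ expSet d m j) fun s => ?_))).symm
  have hdeg : (Multiset.toFinsupp s).degree = s.card := by
    rw [Finsupp.degree_eq_sum]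
    simp [Multiset.sum_count_eq_card (fun a _ => Finset.mem_univ a)]
  have hwt : wt (Multiset.toFinsupp s) = (s.map Fin.val).sum := by
    rw [Finset.sum_multiset_map_count, wt_eq_sum,
      ← Finset.sum_subset (Finset.subset_univ s.toFinset) fun i _ hi => by
        rw [Multiset.toFinsupp_apply, Multiset.count_eq_zero.2
          (fun h => hi (Multiset.mem_toFinset.2 h)), zero_mul]]
    simp [smul_eq_mul]
  show _ ↔ (Multiset.toFinsupp s).degree = m ∧ wt (Multiset.toFinsupp s) = j
  rw [hdeg, hwt]

theorem finrank_weightSpace (m j : ℕ) :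
    Module.finrank k (weightSpace d k m j) = boxCount m d j := by
  rw [← card_expSet]
  exact Module.finrank_eq_nat_card_basis (basisRestrictSupport k (expSet d m j))

instance finiteDimensional_weightSpace (m j : ℕ) :
    FiniteDimensional k (weightSpace d k m j) :=
  have := (finite_expSet d m j).to_subtype
  Module.Finite.of_basis (basisRestrictSupport k (expSet d m j))

/-- Reversing the coefficients. -/
def flip : MvPolynomial (Fin (d + 1)) k →ₐ[k] MvPolynomial (Fin (d + 1)) k :=
  rename Fin.rev

theorem flip_flip (p : MvPolynomial (Fin (d + 1)) k) : flip (flip p) = p := by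
  rw [flip, rename_rename, show (Fin.rev ∘ Fin.rev : Fin (d + 1) → Fin (d + 1)) = id from
    funext Fin.rev_rev, rename_id_apply]

theorem flip_X (i : Fin (d + 1)) : flip (X i : MvPolynomial (Fin (d + 1)) k) = X i.rev :=
  rename_X _ _

variable (d k) in
/-- Cayley's operator `D`. -/
def lower : Derivation k (MvPolynomial (Fin (d + 1)) k) (MvPolynomial (Fin (d + 1)) k) :=
  mkDerivation k fun i => if (i : ℕ) = 0 then 0 else C ((d + 1 - i : ℕ) : k) * X (prevIdx i)

variable (d k) in
/-- Cayley's operator `Δ`. -/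
def raise : Derivation k (MvPolynomial (Fin (d + 1)) k) (MvPolynomial (Fin (d + 1)) k) :=
  mkDerivation k fun i => flip (lower d k (X i.rev))

theorem raise_eq (p : MvPolynomial (Fin (d + 1)) k) : raise d k p = flip (lower d k (flip p)) := by
  induction p using MvPolynomial.induction_on with
  | C a => simp [flip]
  | add p q hp hq => simp only [map_add, hp, hq]
  | mul_X p i hp =>
    rw [Derivation.leibniz, map_mul, Derivation.leibniz, map_add, hp, raise, mkDerivation_X,
      flip_X, smul_eq_mul, smul_eq_mul, smul_eq_mul, smul_eq_mul, map_mul, map_mul, flip_flip,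
      flip_X, Fin.rev_rev]

variable (d k) in
/-- The weight operator. -/
def weightOp : Derivation k (MvPolynomial (Fin (d + 1)) k) (MvPolynomial (Fin (d + 1)) k) :=
  mkDerivation k fun i => C ((d : k) - 2 * (i : ℕ)) * X i

theorem lower_X (i : Fin (d + 1)) : lower d k (X i) =
    if (i : ℕ) = 0 then 0 else C ((d + 1 - i : ℕ) : k) * X (prevIdx i) :=
  mkDerivation_X _ _ _

theorem raise_X (i : Fin (d + 1)) : raise d k (X i) =
    if h : (i : ℕ) < d then C (((i : ℕ) + 1 : ℕ) : k) * X (⟨(i : ℕ) + 1, by omega⟩ : Fin (d + 1))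
    else 0 := by
  have hi := i.2
  rw [raise, mkDerivation_X, lower_X, apply_ite flip, map_zero, map_mul, flip_X]
  split_ifs with h1 h2 h2
  · rw [Fin.val_rev] at h1
    omega
  · rfl
  · congr 1
    · rw [flip, rename_C, Fin.val_rev]
      congr 2
      omega
    · congr 1
      ext
      simp only [Fin.val_rev, coe_prevIdx]
      omega
  · rw [Fin.val_rev] at h1
    omega

/-- **The commutator.** -/
theorem bracket (p : MvPolynomial (Fin (d + 1)) k) :
    lower d k (raise d k p) - raise d k (lower d k p) = weightOp d k p := by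
  induction p using MvPolynomial.induction_on with
  | C a => simp
  | add p q hp hq =>
    simp only [map_add]
    linear_combination hp + hq
  | mul_X p i hp =>
    have hX : lower d k (raise d k (X i)) - raise d k (lower d k (X i)) =
        weightOp d k (X i) := by
      have hi := i.2
      rw [weightOp, mkDerivation_X]
      have hlr : lower d k (raise d k (X i)) =
          C ((((i : ℕ) + 1) * (d - i) : ℕ) : k) * X i := by
        rw [raise_X]
        split_ifs with h
        · rw [Derivation.leibniz, derivation_C, smul_zero, add_zero, smul_eq_mul, lower_X,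
            if_neg (Nat.succ_ne_zero _), ← mul_assoc, ← C_mul, ← Nat.cast_mul]
          congr 2
          · congr 1
            push_cast [show d + 1 - ((i : ℕ) + 1) = d - i by omega]
            rfl
        · rw [show d - (i : ℕ) = 0 by omega, mul_zero, Nat.cast_zero, C_0, zero_mul, map_zero]
      have hrl : raise d k (lower d k (X i)) =
          C ((((d + 1 - i) * i : ℕ)) : k) * X i := by
        rw [lower_X]
        split_ifs with h
        · rw [h, mul_zero, Nat.cast_zero, C_0, zero_mul, map_zero]
        · rw [Derivation.leibniz, derivation_C, smul_zero, add_zero, smul_eq_mul, raise_X,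
            dif_pos (by rw [coe_prevIdx]; omega), ← mul_assoc, ← C_mul, ← Nat.cast_mul]
          congr 2
          · rw [coe_prevIdx, show (i : ℕ) - 1 + 1 = i by omega]
          · exact Fin.ext (show (i : ℕ) - 1 + 1 = i by omega)
      rw [hlr, hrl, ← sub_mul, ← map_sub]
      congr 2
      rw [Nat.cast_mul, Nat.cast_mul, Nat.cast_sub (by omega : (i : ℕ) ≤ d),
        Nat.cast_sub (by omega : (i : ℕ) ≤ d + 1)]
      push_cast
      ring
    simp only [Derivation.leibniz, map_add, smul_eq_mul]
    linear_combination (X i) * hp + p * hX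

theorem weightOp_monomial (μ : Fin (d + 1) →₀ ℕ) (r : k) :
    weightOp d k (monomial μ r) =
      ((μ.degree : k) * d - 2 * (wt μ : k)) • monomial μ r := by
  rw [weightOp, mkDerivation_monomial]
  have h : ∀ i ∈ μ.support, monomial (μ - Finsupp.single i 1) ((μ i : ℕ) : k) •
      (C ((d : k) - 2 * (i : ℕ)) * X i : MvPolynomial (Fin (d + 1)) k) =
        monomial μ ((μ i : k) * ((d : k) - 2 * (i : ℕ))) := fun i hi => by
    rw [smul_eq_mul, X, C_mul_monomial, monomial_mul, Finsupp.sub_add_single_one_cancel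
      (Finsupp.mem_support_iff.1 hi), mul_one]
  rw [Finsupp.sum, Finset.sum_congr rfl h, ← map_sum, smul_monomial, smul_monomial,
    smul_eq_mul, smul_eq_mul]
  congr 1
  rw [mul_comm _ r]
  congr 1
  rw [Finset.sum_subset (Finset.subset_univ μ.support) fun i _ hi => by
    rw [Finsupp.notMem_support_iff.1 hi, Nat.cast_zero, zero_mul], Finsupp.degree_eq_sum, wt_eq_sum]
  simp only [mul_sub, Finset.sum_sub_distrib]
  push_cast
  rw [Finset.sum_mul, Finset.mul_sum]
  exact congrArg _ (Finset.sum_congr rfl fun i _ => by ring)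

theorem weightOp_eq {m j : ℕ} {p : MvPolynomial (Fin (d + 1)) k} (hp : p ∈ weightSpace d k m j) :
    weightOp d k p = ((m : k) * d - 2 * (j : k)) • p := by
  conv_rhs => rw [p.as_sum, Finset.smul_sum]
  conv_lhs => rw [p.as_sum, map_sum]
  refine Finset.sum_congr rfl fun μ hμ => ?_
  obtain ⟨h1, h2⟩ := ((mem_restrictSupport_iff k).1 hp) hμ
  rw [weightOp_monomial, h1, h2]

theorem lower_mem {m j : ℕ} {p : MvPolynomial (Fin (d + 1)) k}
    (hp : p ∈ weightSpace d k m (j + 1)) : lower d k p ∈ weightSpace d k m j := by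
  rw [p.as_sum, map_sum]
  refine sum_mem fun μ hμ => ?_
  obtain ⟨h1, h2⟩ := ((mem_restrictSupport_iff k).1 hp) hμ
  rw [lower, mkDerivation_monomial]
  refine Submodule.smul_mem _ _ (sum_mem fun i hi => ?_)
  show monomial _ _ • (if (i : ℕ) = 0 then 0 else _) ∈ _
  split_ifs with h
  · rw [smul_zero]
    exact zero_mem _
  · rw [smul_eq_mul, mul_left_comm, X, monomial_mul, C_mul_monomial]
    refine (monomial_mem_restrictSupport (R := k)).2 (Or.inl ?_)
    have hμi := Finsupp.sub_add_single_one_cancel (Finsupp.mem_support_iff.1 hi)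
    have e1 := congrArg Finsupp.degree hμi
    have e2 := congrArg wt hμi
    rw [map_add, Finsupp.degree_single] at e1
    rw [wt_add, wt_single, one_mul] at e2
    refine ⟨?_, ?_⟩
    · rw [map_add, Finsupp.degree_single, e1, h1]
    · rw [wt_add, wt_single, one_mul, coe_prevIdx]
      omega

theorem lower_eq_zero {m : ℕ} {p : MvPolynomial (Fin (d + 1)) k}
    (hp : p ∈ weightSpace d k m 0) : lower d k p = 0 := by
  rw [p.as_sum, map_sum]
  refine Finset.sum_eq_zero fun μ hμ => ?_
  obtain ⟨-, h2⟩ := ((mem_restrictSupport_iff k).1 hp) hμ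
  rw [lower, mkDerivation_monomial]
  refine smul_eq_zero_of_right _ (Finset.sum_eq_zero fun i hi => ?_)
  show monomial _ _ • (if (i : ℕ) = 0 then 0 else _) = 0
  rw [if_pos ?_, smul_zero]
  by_contra h
  have h3 := Finsupp.le_weight_of_ne_zero' (w := fun i : Fin (d + 1) => (i : ℕ))
    (Finsupp.mem_support_iff.1 hi)
  have h4 : Finsupp.weight (fun i : Fin (d + 1) => (i : ℕ)) μ = 0 := h2
  omega

theorem flip_mem {m j : ℕ} {p : MvPolynomial (Fin (d + 1)) k} (hp : p ∈ weightSpace d k m j) :
    flip p ∈ weightSpace d k m (m * d - j) := by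
  rw [p.as_sum, map_sum]
  refine sum_mem fun μ hμ => ?_
  obtain ⟨h1, h2⟩ := ((mem_restrictSupport_iff k).1 hp) hμ
  rw [flip, rename_monomial]
  refine (monomial_mem_restrictSupport (R := k)).2 (Or.inl ?_)
  obtain ⟨h3, h4⟩ := wt_mapDomain_rev h1
  exact ⟨h4, by omega⟩

theorem raise_mem {m j : ℕ} {p : MvPolynomial (Fin (d + 1)) k} (hp : p ∈ weightSpace d k m j) :
    raise d k p ∈ weightSpace d k m (j + 1) := by
  rw [raise_eq]
  rcases Nat.lt_or_ge j (m * d) with h | h
  · have h1 := flip_mem hp
    rw [show m * d - j = (m * d - j - 1) + 1 by omega] at h1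
    have h2 := flip_mem (lower_mem h1)
    rwa [show m * d - (m * d - j - 1) = j + 1 by omega] at h2
  · have h1 := flip_mem hp
    rw [show m * d - j = 0 by omega] at h1
    rw [lower_eq_zero h1, map_zero]
    exact zero_mem _

theorem weightSpace_eq_bot {m j : ℕ} (h : m * d < j) : weightSpace d k m j = ⊥ := by
  refine (Submodule.eq_bot_iff _).2 fun p hp => ?_
  rw [p.as_sum]
  refine Finset.sum_eq_zero fun μ hμ => ?_
  obtain ⟨h1, h2⟩ := ((mem_restrictSupport_iff k).1 hp) hμ
  have := wt_le h1
  omega

end FA.CayleySylvester
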